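/-
GATE-F / node GF-EGENUS (helper45), file 1: Mathlib only.

A nonsingular Weierstrass cubic over an algebraically closed field of characteristic `≠ 2` has no
polynomial parametrisation `(x, y) = (q(s), c(s))` with `q` non-constant.

Proof: `(2c + a₁q + a₃)² = 4 (q - e₁)(q - e₂)(q - e₃)` with `e_i` distinct (`Δ ≠ 0`); the three
factors are pairwise coprime, so each is a square; `α² - β² = e₂ - e₁ ≠ 0` forces `α`, `β` constant.
-/
import Mathlib

set_option autoImplicit false
set_option maxHeartbeats 400000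

namespace Fermat.Agent.GF.EGenus

open Polynomial

variable {K : Type*} [Field K]

/-- a polynomial associated to a square is a square, over an algebraically closed field. -/
theorem eq_sq_of_associated_sq [IsAlgClosed K] {d A : K[X]} (h : Associated (d ^ 2) A) :
    ∃ α : K[X], A = α ^ 2 := by
  obtain ⟨u, hu⟩ := h
  obtain ⟨r, hr, hru⟩ := Polynomial.isUnit_iff.mp u.isUnit
  obtain ⟨s, hs⟩ := IsAlgClosed.exists_pow_nat_eq r (n := 2) (by norm_num)
  refine ⟨d * C s, ?_⟩
  rw [← hu, ← hru, ← hs, mul_pow, ← C_pow]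

/-- two squares differing by a nonzero constant are constants (`char ≠ 2`). -/
theorem natDegree_eq_zero_of_sq_sub_sq (h2 : (2 : K) ≠ 0) {α β : K[X]} {δ : K} (hδ : δ ≠ 0)
    (h : α ^ 2 - β ^ 2 = C δ) : α.natDegree = 0 := by
  have hfac : (α - β) * (α + β) = C δ := by rw [← h]; ring
  have hne : (α - β) * (α + β) ≠ 0 := by rw [hfac]; exact C_ne_zero.mpr hδ
  have h1 : (α - β) ≠ 0 := left_ne_zero_of_mul hne
  have h3 : (α + β) ≠ 0 := right_ne_zero_of_mul hne
  have hdeg : ((α - β) * (α + β)).natDegree = 0 := by rw [hfac, natDegree_C]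
  rw [natDegree_mul h1 h3] at hdeg
  have hd1 : (α - β).natDegree = 0 := by omega
  have hd2 : (α + β).natDegree = 0 := by omega
  obtain ⟨e1, he1⟩ := natDegree_eq_zero.mp hd1
  obtain ⟨e2, he2⟩ := natDegree_eq_zero.mp hd2
  have : α = C ((e1 + e2) / 2) := by
    have h4 : C (2 : K) * α = C (e1 + e2) := by
      rw [C_add, he1, he2]
      simp only [map_ofNat]
      ring
    have h5 : α = C (2 : K)⁻¹ * (C (2 : K) * α) := by
      rw [← mul_assoc, ← C_mul, inv_mul_cancel₀ h2, C_1, one_mul]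
    rw [h5, h4, ← C_mul]
    congr 1
    field_simp
  rw [this, natDegree_C]

theorem isCoprime_sub_C (q : K[X]) {x y : K} (hxy : x ≠ y) : IsCoprime (q - C x) (q - C y) := by
  have h : y - x ≠ 0 := sub_ne_zero.mpr (Ne.symm hxy)
  refine ⟨C (y - x)⁻¹, -C (y - x)⁻¹, ?_⟩
  have : C (y - x)⁻¹ * (q - C x) + -C (y - x)⁻¹ * (q - C y) = C (y - x)⁻¹ * C (y - x) := by
    rw [C_sub]; ring
  rw [this, ← C_mul, inv_mul_cancel₀ h, C_1]

/-- **No polynomial parametrisation of a nonsingular Weierstrass cubic.** -/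
theorem no_poly_param [IsAlgClosed K] (W : WeierstrassCurve K) (hΔ : W.Δ ≠ 0) (h2 : (2 : K) ≠ 0)
    (q c : K[X]) (hq : 0 < q.natDegree)
    (h : c ^ 2 + C W.a₁ * q * c + C W.a₃ * c = q ^ 3 + C W.a₂ * q ^ 2 + C W.a₄ * q + C W.a₆) :
    False := by
  set P := W.twoTorsionPolynomial with hP
  have ha : P.a ≠ 0 := by
    show (4 : K) ≠ 0
    have : (4 : K) = 2 * 2 := by norm_num
    rw [this]; exact mul_ne_zero h2 h2
  have hmap : Cubic.map (RingHom.id K) P = P := by cases P; rfl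
  have hsplit : ((P.toPoly).map (RingHom.id K)).Splits := IsAlgClosed.splits _
  obtain ⟨x, y, z, h3⟩ := (Cubic.splits_iff_roots_eq_three (φ := RingHom.id K) ha).mp hsplit
  have hprod := Cubic.eq_prod_three_roots (φ := RingHom.id K) ha h3
  rw [hmap] at hprod
  have hdisc : P.discr ≠ 0 := by
    rw [hP, W.twoTorsionPolynomial_discr]
    have : (16 : K) = 2 * 2 * 2 * 2 := by norm_num
    rw [this]
    exact mul_ne_zero (mul_ne_zero (mul_ne_zero (mul_ne_zero h2 h2) h2) h2) hΔ
  obtain ⟨hxy, hxz, hyz⟩ := (Cubic.discr_ne_zero_iff_roots_ne (φ := RingHom.id K) ha h3).mp hdisc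
  -- the square identity
  set S := C (2 : K) * c + C W.a₁ * q + C W.a₃ with hS
  have hsq : S ^ 2 = P.toPoly.comp q := by
    have : P.toPoly = C 4 * X ^ 3 + C W.b₂ * X ^ 2 + C (2 * W.b₄) * X + C W.b₆ := rfl
    rw [this]
    simp only [add_comp, mul_comp, C_comp, pow_comp, X_comp]
    rw [hS, WeierstrassCurve.b₂, WeierstrassCurve.b₄, WeierstrassCurve.b₆]
    simp only [C_add, C_mul, C_pow, map_ofNat]
    linear_combination 4 * h
  rw [hprod] at hsq
  simp only [mul_comp, sub_comp, C_comp, X_comp, RingHom.id_apply] at hsq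
  set A := q - C x with hA
  set B := q - C y with hB
  set D := q - C z with hD
  have h4 : (4 : K) ≠ 0 := ha
  -- `A * (B * D)` and `B * (A * D)` are squares
  have hPa : P.a = 4 := rfl
  have hsq1 : A * (B * D) = (C (2 : K)⁻¹ * S) ^ 2 := by
    rw [mul_pow, hsq, ← C_pow, hPa]
    have : (2 : K)⁻¹ ^ 2 * 4 = 1 := by field_simp; norm_num
    calc A * (B * D) = C ((2 : K)⁻¹ ^ 2 * 4) * (A * (B * D)) := by rw [this, C_1, one_mul]
      _ = _ := by rw [C_mul]; ring
  have hsq2 : B * (A * D) = (C (2 : K)⁻¹ * S) ^ 2 := by rw [← hsq1]; ring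
  have hcop1 : IsCoprime A (B * D) :=
    IsCoprime.mul_right (isCoprime_sub_C q hxy) (isCoprime_sub_C q hxz)
  have hcop2 : IsCoprime B (A * D) :=
    IsCoprime.mul_right (isCoprime_sub_C q hxy.symm) (isCoprime_sub_C q hyz)
  obtain ⟨d1, hd1⟩ := exists_associated_pow_of_mul_eq_pow' hcop1 hsq1
  obtain ⟨d2, hd2⟩ := exists_associated_pow_of_mul_eq_pow' hcop2 hsq2
  obtain ⟨α, hα⟩ := eq_sq_of_associated_sq hd1
  obtain ⟨β, hβ⟩ := eq_sq_of_associated_sq hd2
  have hdiff : α ^ 2 - β ^ 2 = C (y - x) := by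
    rw [← hα, ← hβ, hA, hB, C_sub]; ring
  have hα0 := natDegree_eq_zero_of_sq_sub_sq h2 (sub_ne_zero.mpr (Ne.symm hxy)) hdiff
  have hA0 : A.natDegree = 0 := by rw [hα, natDegree_pow, hα0]
  have hAq : A.natDegree = q.natDegree := by
    rw [hA]
    exact natDegree_sub_C
  omega

end Fermat.Agent.GF.EGenus
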