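/-
GATE-F / node GF-EGENUS (helper45), file 2: the genus of a Weierstrass function field is `1`,
in the Prelude / `RR/Final` frame, HYPOTHESIS FORM on the place at infinity.

Setting: `K` algebraically closed, `2 ≠ 0` in `K`, `[FiniteResidues K F] [HasPrincipalDivisors K F]`,
`W : WeierstrassCurve K` with `Δ ≠ 0`, `t y : F` on the curve, `P : Place K F` of degree one with
`ord_P t = -2`, `ord_P y = -3`, and `t`, `y` regular at every other place.

* `lP_eq_l0` : `L(P) = L(0)` (no function with a single simple pole);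
* `finrank_nP` : `ℓ(n P) = n` for `n ≥ 1`;
* `genusFF_eq_one` : `genusFF K F = 1`;
* `finrank_eq_degree` : `1 ≤ deg D → ℓ(D) = deg D` (so `ℓ((Q)) = 1` for a place `Q` of degree one and
  `ℓ(D) ≥ 1` for `deg D = 1`: the binders `hinj`, `hsurj` of GF-EPOINTS (P3)).
-/
import Mathlib
import Fermat.Agent.RR.Final
import Fermat.Agent.GJ27.RRDual.Duality
import Fermat.Agent.GF.EGenus.PolyLemma

set_option autoImplicit false
set_option maxHeartbeats 400000
set_option linter.unusedSectionVars false
set_option linter.style.haveILetI false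

noncomputable section

open AlgebraicCurve Polynomial

namespace Fermat.Agent.GF.EGenus

open Fermat.Agent.RRh45 Fermat.Agent.RR

variable {K F : Type*} [Field K] [Field F] [Algebra K F]

section Ord

variable (v : Place K F)

theorem ord_pow' (f : F) (n : ℕ) : v.ord (f ^ n) = n * v.ord f := by
  have := v.ord_zpow f (n : ℤ)
  simpa using this

theorem ord_algebraMap_eq_zero {a : K} (ha : a ≠ 0) : v.ord (algebraMap K F a) = 0 := by
  have h1 : v.adicValuation (algebraMap K F a) ≤ 1 := v.adicValuation_algebraMap_le_one a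
  have h2 : v.adicValuation (algebraMap K F a⁻¹) ≤ 1 := v.adicValuation_algebraMap_le_one a⁻¹
  have hne : algebraMap K F a ≠ 0 := (_root_.map_ne_zero _).mpr ha
  have hne' : algebraMap K F a⁻¹ ≠ 0 := (_root_.map_ne_zero _).mpr (inv_ne_zero ha)
  have h3 : v.ord (algebraMap K F a) + v.ord (algebraMap K F a⁻¹) = 0 := by
    rw [← v.ord_mul hne hne', ← map_mul, mul_inv_cancel₀ ha, map_one, v.ord_one]
  have h4 : 0 ≤ v.ord (algebraMap K F a) := by
    have := (v.adicValuation_le_exp_iff (f := algebraMap K F a) (n := 0)).mp (by simpa using h1)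
    rcases this with h | h
    · exact absurd h hne
    · simpa using h
  have h5 : 0 ≤ v.ord (algebraMap K F a⁻¹) := by
    have := (v.adicValuation_le_exp_iff (f := algebraMap K F a⁻¹) (n := 0)).mp (by simpa using h2)
    rcases this with h | h
    · exact absurd h hne'
    · simpa using h
  omega

theorem ord_algebraMap_eq_zero' (a : K) : v.ord (algebraMap K F a) = 0 := by
  rcases eq_or_ne a 0 with rfl | ha
  · simp
  · exact ord_algebraMap_eq_zero v ha

end Ord

section Frame

variable [FiniteResidues K F] [HasPrincipalDivisors K F] (P : Place K F)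

/-- the divisor `n P`. -/
def nP (n : ℕ) : Divisor K F := Finsupp.single P (n : ℤ)

theorem mem_nP {n : ℕ} {f : F} : f ∈ riemannRochSpace (nP P n) ↔
    f = 0 ∨ (-(n : ℤ) ≤ P.ord f ∧ ∀ v : Place K F, v ≠ P → 0 ≤ v.ord f) := by
  rw [mem_riemannRochSpace_iff]
  constructor
  · intro h
    by_cases hf : f = 0
    · exact Or.inl hf
    · right
      refine ⟨?_, fun v hv => ?_⟩
      · have := (h P).resolve_left hf
        simpa [nP] using this
      · have := (h v).resolve_left hf
        simpa [nP, Finsupp.single_eq_of_ne hv] using this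
  · rintro (h | ⟨h1, h2⟩) v
    · exact Or.inl h
    · right
      by_cases hv : v = P
      · subst hv; simpa [nP] using h1
      · simpa [nP, Finsupp.single_eq_of_ne hv] using h2 v hv

theorem nP_zero : nP P 0 = 0 := by simp [nP]

theorem nP_succ_sub (n : ℕ) : nP P (n + 1) - Finsupp.single P 1 = nP P n := by
  simp only [nP]
  rw [← Finsupp.single_sub]
  congr 1
  push_cast
  ring

theorem nP_mono {m n : ℕ} (h : m ≤ n) : nP P m ≤ nP P n := by
  rw [Finsupp.le_def]
  intro v
  simp only [nP]
  by_cases hv : v = P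
  · subst hv; simpa using h
  · rw [Finsupp.single_eq_of_ne hv, Finsupp.single_eq_of_ne hv]

theorem degree_nP (hdeg : P.deg = 1) (n : ℕ) : Divisor.degree (nP P n) = n := by
  rw [nP, Divisor.degree_single, hdeg]; simp

theorem finrank_succ_le (hdeg : P.deg = 1) (n : ℕ) :
    Module.finrank K (riemannRochSpace (nP P (n + 1))) ≤
      Module.finrank K (riemannRochSpace (nP P n)) + 1 := by
  haveI : Nonempty (Place K F) := ⟨P⟩
  have h := (finite_step (nP P (n + 1)) P).2
  rw [nP_succ_sub, hdeg] at h
  exact h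

/-- **one step**: a function in `L((n+1)P)` not in `L(nP)` spans the quotient. -/
theorem step (hdeg : P.deg = 1) (n : ℕ) {h : F} (h1 : h ∈ riemannRochSpace (nP P (n + 1)))
    (h2 : h ∉ riemannRochSpace (nP P n)) :
    riemannRochSpace (nP P n) ⊔ Submodule.span K {h} = riemannRochSpace (nP P (n + 1)) ∧
      Module.finrank K (riemannRochSpace (nP P (n + 1))) =
        Module.finrank K (riemannRochSpace (nP P n)) + 1 := by
  haveI : Nonempty (Place K F) := ⟨P⟩
  set S := riemannRochSpace (nP P n) ⊔ Submodule.span K {h} with hS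
  have hle : S ≤ riemannRochSpace (nP P (n + 1)) :=
    sup_le (riemannRochSpace_mono (nP_mono P (Nat.le_succ n)))
      ((Submodule.span_singleton_le_iff_mem _ _).mpr h1)
  haveI : FiniteDimensional K S := Submodule.finiteDimensional_of_le hle
  have hlt : riemannRochSpace (nP P n) < S := by
    refine lt_of_le_of_ne le_sup_left fun heq => h2 ?_
    rw [heq]
    exact (le_sup_right : Submodule.span K {h} ≤ S) (Submodule.mem_span_singleton_self h)
  have h3 := Submodule.finrank_lt_finrank_of_lt hlt
  have h4 := finrank_succ_le P hdeg n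
  have h5 := Submodule.finrank_mono hle
  have h6 : S = riemannRochSpace (nP P (n + 1)) :=
    Submodule.eq_of_le_of_finrank_le hle (by omega)
  exact ⟨h6, by omega⟩

theorem one_mem_zero : (1 : F) ∈ riemannRochSpace (0 : Divisor K F) := by
  rw [mem_riemannRochSpace_iff]
  intro v
  right
  simp

/-- `ℓ(0) = 1` as soon as some place has degree one. -/
theorem finrank_zero (hdeg : P.deg = 1) :
    Module.finrank K (riemannRochSpace (0 : Divisor K F)) = 1 := by
  haveI : Nonempty (Place K F) := ⟨P⟩
  have h := (finite_step (0 : Divisor K F) P).2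
  have hneg : Divisor.degree ((0 : Divisor K F) - Finsupp.single P 1) < 0 := by
    rw [zero_sub, map_neg, Divisor.degree_single, hdeg]; simp
  rw [riemannRochSpace_eq_bot_of_degree_neg hneg, finrank_bot, hdeg] at h
  have hpos : 0 < Module.finrank K (riemannRochSpace (0 : Divisor K F)) := by
    rw [Module.finrank_pos_iff_exists_ne_zero]
    exact ⟨⟨1, one_mem_zero⟩, fun h => one_ne_zero (congrArg Subtype.val h)⟩
  omega

/-- `L(0) = K`. -/
theorem exists_const_of_mem_zero (hdeg : P.deg = 1) {w : F}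
    (hw : w ∈ riemannRochSpace (0 : Divisor K F)) : ∃ a : K, w = algebraMap K F a := by
  have hone : (⟨1, one_mem_zero⟩ : riemannRochSpace (0 : Divisor K F)) ≠ 0 :=
    fun h => one_ne_zero (congrArg Subtype.val h)
  obtain ⟨a, ha⟩ := (finrank_eq_one_iff_of_nonzero' _ hone).mp (finrank_zero P hdeg) ⟨w, hw⟩
  refine ⟨a, ?_⟩
  have := congrArg Subtype.val ha
  simp only [Submodule.coe_smul] at this
  rw [← this, Algebra.smul_def, mul_one]

end Frame

section Weierstrass

variable [FiniteResidues K F] [HasPrincipalDivisors K F]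

/-- The hypotheses: a Weierstrass function field with its place at infinity. -/
structure WFrame (W : WeierstrassCurve K) (t y : F) (P : Place K F) : Prop where
  equation : y ^ 2 + algebraMap K F W.a₁ * t * y + algebraMap K F W.a₃ * y =
    t ^ 3 + algebraMap K F W.a₂ * t ^ 2 + algebraMap K F W.a₄ * t + algebraMap K F W.a₆
  deg_one : P.deg = 1
  ord_t : P.ord t = -2
  ord_y : P.ord y = -3
  reg_t : ∀ v : Place K F, v ≠ P → 0 ≤ v.ord t
  reg_y : ∀ v : Place K F, v ≠ P → 0 ≤ v.ord y

namespace WFrame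

variable {W : WeierstrassCurve K} {t y : F} {P : Place K F} (H : WFrame W t y P)

include H

theorem t_ne_zero : t ≠ 0 := by
  intro h
  have := H.ord_t
  rw [h, Place.ord_zero] at this
  omega

theorem y_ne_zero : y ≠ 0 := by
  intro h
  have := H.ord_y
  rw [h, Place.ord_zero] at this
  omega

/-- the monomial with pole of exact order `2 i` -/
theorem t_pow_mem (i : ℕ) : t ^ i ∈ riemannRochSpace (nP P (2 * i)) := by
  rw [mem_nP]
  right
  refine ⟨?_, fun v hv => ?_⟩
  · rw [ord_pow', H.ord_t]; push_cast; omega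
  · rw [ord_pow']
    have := H.reg_t v hv
    positivity

theorem t_pow_not_mem (i : ℕ) (hi : 0 < i) : t ^ i ∉ riemannRochSpace (nP P (2 * i - 1)) := by
  rw [mem_nP]
  rintro (h | ⟨h, -⟩)
  · exact pow_ne_zero i H.t_ne_zero h
  · rw [ord_pow', H.ord_t] at h
    have : ((2 * i - 1 : ℕ) : ℤ) = 2 * i - 1 := by omega
    rw [this] at h
    omega

theorem t_pow_mul_y_mem (i : ℕ) : t ^ i * y ∈ riemannRochSpace (nP P (2 * i + 3)) := by
  rw [mem_nP]
  right
  refine ⟨?_, fun v hv => ?_⟩
  · rw [P.ord_mul (pow_ne_zero i H.t_ne_zero) H.y_ne_zero, ord_pow', H.ord_t, H.ord_y]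
    push_cast; omega
  · rw [v.ord_mul (pow_ne_zero i H.t_ne_zero) H.y_ne_zero, ord_pow']
    have h1 := H.reg_t v hv
    have h2 := H.reg_y v hv
    positivity

theorem t_pow_mul_y_not_mem (i : ℕ) : t ^ i * y ∉ riemannRochSpace (nP P (2 * i + 2)) := by
  rw [mem_nP]
  rintro (h | ⟨h, -⟩)
  · exact mul_ne_zero (pow_ne_zero i H.t_ne_zero) H.y_ne_zero h
  · rw [P.ord_mul (pow_ne_zero i H.t_ne_zero) H.y_ne_zero, ord_pow', H.ord_t, H.ord_y] at h
    push_cast at h
    omega

/-- for `m ≥ 2` there is a function in `L(mP)` not in `L((m-1)P)`. -/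
theorem exists_mem_not_mem (m : ℕ) (hm : 1 ≤ m) :
    ∃ h : F, h ∈ riemannRochSpace (nP P (m + 1)) ∧ h ∉ riemannRochSpace (nP P m) := by
  rcases Nat.even_or_odd' (m + 1) with ⟨i, hi | hi⟩
  · refine ⟨t ^ i, ?_, ?_⟩
    · rw [hi]; exact H.t_pow_mem i
    · have := H.t_pow_not_mem i (by omega)
      rwa [show 2 * i - 1 = m by omega] at this
  · obtain ⟨j, rfl⟩ : ∃ j, i = j + 1 := ⟨i - 1, by omega⟩
    refine ⟨t ^ j * y, ?_, ?_⟩
    · rw [show m + 1 = 2 * j + 3 by omega]; exact H.t_pow_mul_y_mem j
    · rw [show m = 2 * j + 2 by omega]; exact H.t_pow_mul_y_not_mem j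

omit H in
/-- algebraic elements are constants over an algebraically closed field. -/
theorem exists_const_of_isAlgebraic [IsAlgClosed K] {f : F} (hf : IsAlgebraic K f) :
    ∃ a : K, f = algebraMap K F a := by
  have hirr := minpoly.irreducible hf.isIntegral
  have hdeg := IsAlgClosed.degree_eq_one_of_irreducible K hirr
  obtain ⟨a, ha⟩ := minpoly.mem_range_of_degree_eq_one K f hdeg
  exact ⟨a, ha.symm⟩

/-- **no function with a single simple pole at infinity**: `L(P) = L(0)`. -/
theorem mem_zero_of_mem_one [IsAlgClosed K] (h2 : (2 : K) ≠ 0) (hΔ : W.Δ ≠ 0) {f : F}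
    (hf1 : f ∈ riemannRochSpace (nP P 1)) : f ∈ riemannRochSpace (nP P 0) := by
  by_contra hf0
  have hf_ne : f ≠ 0 := fun h => hf0 (by rw [h]; exact Submodule.zero_mem _)
  obtain ⟨hP1, hreg⟩ := (mem_nP P).mp hf1 |>.resolve_left hf_ne
  have hP0 : P.ord f = -1 := by
    have : ¬ (0 ≤ P.ord f) := fun h0 => hf0 ((mem_nP P).mpr (Or.inr ⟨by simpa using h0, hreg⟩))
    push_cast at hP1
    omega
  -- powers of `f`
  have hpow_mem : ∀ k : ℕ, f ^ k ∈ riemannRochSpace (nP P k) := fun k => by
    rw [mem_nP]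
    right
    refine ⟨?_, fun v hv => ?_⟩
    · rw [ord_pow', hP0]; omega
    · rw [ord_pow']
      have := hreg v hv
      positivity
  have hpow_not_mem : ∀ k : ℕ, f ^ (k + 1) ∉ riemannRochSpace (nP P k) := fun k => by
    rw [mem_nP]
    rintro (h | ⟨h, -⟩)
    · exact pow_ne_zero _ hf_ne h
    · rw [ord_pow', hP0] at h
      push_cast at h
      omega
  -- every element of `L(kP)` is a polynomial in `f`
  have hpoly : ∀ k : ℕ, ∀ w ∈ riemannRochSpace (nP P k), ∃ p : K[X], aeval f p = w := by
    intro k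
    induction k with
    | zero =>
      intro w hw
      rw [nP_zero] at hw
      obtain ⟨a, rfl⟩ := exists_const_of_mem_zero P H.deg_one hw
      exact ⟨C a, by simp⟩
    | succ k ih =>
      intro w hw
      rw [← (step P H.deg_one k (hpow_mem (k + 1)) (hpow_not_mem k)).1] at hw
      obtain ⟨w0, hw0, z, hz, rfl⟩ := Submodule.mem_sup.mp hw
      obtain ⟨a, rfl⟩ := Submodule.mem_span_singleton.mp hz
      obtain ⟨p0, hp0⟩ := ih w0 hw0
      refine ⟨p0 + C a * X ^ (k + 1), ?_⟩
      rw [map_add, hp0, map_mul, aeval_C, map_pow, aeval_X, Algebra.smul_def]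
  have ht_mem : t ∈ riemannRochSpace (nP P 2) := by simpa using H.t_pow_mem 1
  have hy_mem : y ∈ riemannRochSpace (nP P 3) := by simpa using H.t_pow_mul_y_mem 0
  obtain ⟨q, hq⟩ := hpoly 2 t ht_mem
  obtain ⟨c, hc⟩ := hpoly 3 y hy_mem
  -- `q` is not constant
  have hqdeg : 0 < q.natDegree := by
    by_contra hq0
    obtain ⟨a, ha⟩ := natDegree_eq_zero.mp (by omega : q.natDegree = 0)
    rw [← ha, aeval_C] at hq
    have := H.ord_t
    rw [← hq, ord_algebraMap_eq_zero'] at this
    omega
  -- `f` is transcendental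
  have htr : Transcendental K f := by
    intro halg
    obtain ⟨a, ha⟩ := exists_const_of_isAlgebraic halg
    rw [ha, ord_algebraMap_eq_zero'] at hP0
    omega
  have hinj := transcendental_iff_injective.mp htr
  have heq : c ^ 2 + C W.a₁ * q * c + C W.a₃ * c =
      q ^ 3 + C W.a₂ * q ^ 2 + C W.a₄ * q + C W.a₆ := by
    apply hinj
    simp only [map_add, map_mul, map_pow, aeval_C, hq, hc]
    exact H.equation
  exact no_poly_param W hΔ h2 q c hqdeg heq

/-- **`ℓ(n P) = n`** for `n ≥ 1`. -/
theorem finrank_nP [IsAlgClosed K] (h2 : (2 : K) ≠ 0) (hΔ : W.Δ ≠ 0) (n : ℕ) (hn : 1 ≤ n) :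
    Module.finrank K (riemannRochSpace (nP P n)) = n := by
  induction n with
  | zero => omega
  | succ n ih =>
    rcases Nat.eq_zero_or_pos n with rfl | hpos
    · -- `L(P) = L(0)`
      have h1 : riemannRochSpace (nP P 1) = riemannRochSpace (nP P 0) :=
        le_antisymm (fun f hf => H.mem_zero_of_mem_one h2 hΔ hf)
          (riemannRochSpace_mono (nP_mono P (by omega)))
      rw [zero_add, h1, nP_zero]
      exact finrank_zero P H.deg_one
    · obtain ⟨h, hh1, hh2⟩ := H.exists_mem_not_mem n hpos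
      rw [(step P H.deg_one n hh1 hh2).2, ih hpos]

/-- **the genus is one.** -/
theorem genusFF_eq_one [IsAlgClosed K] (h2 : (2 : K) ≠ 0) (hΔ : W.Δ ≠ 0) : genusFF K F = 1 := by
  haveI : Nonempty (Place K F) := ⟨P⟩
  obtain ⟨c, hc⟩ := exists_ell_eq K F
  set n : ℕ := max c.toNat 1 with hn
  have hn1 : 1 ≤ n := le_max_right _ _
  have hdeg : c ≤ Divisor.degree (nP P n) := by
    rw [degree_nP P H.deg_one]
    have : c.toNat ≤ n := le_max_left _ _
    have h3 := Int.self_le_toNat c
    omega
  have h1 := (hc (nP P n) hdeg).1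
  rw [H.finrank_nP h2 hΔ n hn1, degree_nP P H.deg_one, finrank_zero P H.deg_one] at h1
  push_cast at h1
  omega

/-- **Riemann–Roch in genus one**: `ℓ(D) = deg D` for `deg D ≥ 1`. -/
theorem finrank_eq_degree [IsAlgClosed K] (h2 : (2 : K) ≠ 0) (hΔ : W.Δ ≠ 0) {D : Divisor K F}
    (hD : 1 ≤ Divisor.degree D) :
    (Module.finrank K (riemannRochSpace D) : ℤ) = Divisor.degree D := by
  haveI : Nonempty (Place K F) := ⟨P⟩
  have hg := H.genusFF_eq_one h2 hΔ
  have := Fermat.Agent.GJ27.RRDual.finrank_eq_of_le_degree (K := K) (F := F)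
    (finrank_zero P H.deg_one) (D := D) (by rw [hg]; simpa using hD)
  rw [hg] at this
  simpa using this

/-- binder `hinj` of GF-EPOINTS (P3): `ℓ((Q)) = 1` for a place `Q` of degree one. -/
theorem finrank_single_eq_one [IsAlgClosed K] (h2 : (2 : K) ≠ 0) (hΔ : W.Δ ≠ 0) (Q : Place K F)
    (hQ : Q.deg = 1) : Module.finrank K (riemannRochSpace (Finsupp.single Q (1 : ℤ))) = 1 := by
  have h := H.finrank_eq_degree h2 hΔ (D := Finsupp.single Q (1 : ℤ))
    (by rw [Divisor.degree_single, hQ]; simp)
  rw [Divisor.degree_single, hQ] at h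
  have : (Module.finrank K (riemannRochSpace (Finsupp.single Q (1 : ℤ))) : ℤ) = 1 := by
    simpa using h
  exact_mod_cast this

/-- binder `hsurj` of GF-EPOINTS (P3): `ℓ(D) ≥ 1` for `deg D = 1`. -/
theorem one_le_finrank_of_degree_eq_one [IsAlgClosed K] (h2 : (2 : K) ≠ 0) (hΔ : W.Δ ≠ 0)
    {D : Divisor K F} (hD : Divisor.degree D = 1) :
    1 ≤ Module.finrank K (riemannRochSpace D) := by
  have h := H.finrank_eq_degree h2 hΔ (D := D) (by rw [hD])
  rw [hD] at h
  have : (Module.finrank K (riemannRochSpace D) : ℤ) = 1 := h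
  omega

end WFrame

/-- constructor from Mathlib's `WeierstrassCurve.Affine.Equation` over the base change (the spelling
of `GE/FF/PlacesAbs`: `hE : (W⁄F).Equation t y`). -/
theorem WFrame.of_equation (W : WeierstrassCurve.Affine K) {t y : F} {P : Place K F}
    (hE : (W.baseChange F).toAffine.Equation t y) (deg_one : P.deg = 1) (ord_t : P.ord t = -2)
    (ord_y : P.ord y = -3) (reg_t : ∀ v : Place K F, v ≠ P → 0 ≤ v.ord t)
    (reg_y : ∀ v : Place K F, v ≠ P → 0 ≤ v.ord y) : WFrame W t y P where
  equation := by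
    have := (WeierstrassCurve.Affine.equation_iff t y).mp hE
    simpa using this
  deg_one := deg_one
  ord_t := ord_t
  ord_y := ord_y
  reg_t := reg_t
  reg_y := reg_y

end Weierstrass

end Fermat.Agent.GF.EGenus
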