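/-
GATE-F / node GF-EGENUS-INST (helper45): the `WFrame` of `GF/EGenus/Core.lean` EXISTS on every
function field `F = K(t, y)` of a Weierstrass equation, `[F : K(t)] = 2` — in particular on
Mathlib's `E.FunctionField` (helper75 `GF/EFrame/Generic`: `genX`, `genY`), in ANY characteristic.
Hence, for `K` algebraically closed, `2 ≠ 0`, `Δ ≠ 0`:

* `genusFF_functionField : genusFF K E.FunctionField = 1`;
* `finrank_eq_degree_functionField : 1 ≤ deg D → ℓ(D) = deg D` — the binders `hrrF` / `hrrFt` of
  helper75's `lSpaceHypE`.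

Construction of the place at infinity: Chevalley place with `t ∉ O` (`GE/FF/PlacesAbs`), discrete by
`GJ/FF/ValRing.placeOf`; `2 ord y = 3 ord t` at every pole of `t` (`valuation_y_sq_eq`), so each pole
contributes `≥ 2` to `deg (t)_∞ = [F : K(t)] = 2` (`GJ/FF/PrincipalGen`, char-free): the pole is
unique, of degree one, `ord t = -2`, `ord y = -3`; `y` is integral over `K[t]`.
-/
import Mathlib
import Fermat.Agent.GF.EGenus.Core
import Fermat.Agent.GF.EFrame.Generic
import Fermat.Agent.GE.FF.PlacesAbs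
import Fermat.Agent.GJ.FF.ValRing
import Fermat.Agent.GJ.FF.PrincipalGen
import Fermat.Agent.GJ27.RRCons

set_option autoImplicit false
set_option maxHeartbeats 400000
set_option linter.unusedSectionVars false
set_option linter.style.haveILetI false

noncomputable section

open AlgebraicCurve Polynomial IntermediateField WeierstrassCurve WeierstrassCurve.Affine

namespace Fermat.Agent.GF.EGenus

open Fermat.Agent.RRh45 Fermat.Agent.RR Fermat.Agent.S24 Fermat.Agent.GE.FF.PlacesAbs
  Fermat.Agent.GJ.FF.PrincipalOf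

variable {K F : Type*} [Field K] [Field F] [Algebra K F]

section Abstract

variable (W : WeierstrassCurve.Affine K) {t y : F} (hE : (W⁄F).Equation t y)

include hE

/-- `2 ord y = 3 ord t` at every pole of `t`. -/
theorem two_mul_ord_y (v : Place K F) (ht : t ∉ v.toValuationSubring) :
    2 * v.ord y = 3 * v.ord t := by
  have hk : ∀ a : K, algebraMap K F a ∈ v.toValuationSubring := v.algebraMap_mem'
  have h := valuation_y_sq_eq W v.toValuationSubring hk hE ht
  have hy := y_not_mem W v.toValuationSubring hk hE ht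
  have ht0 : t ≠ 0 := fun h0 => ht (h0 ▸ v.toValuationSubring.zero_mem)
  have hy0 : y ≠ 0 := fun h0 => hy (h0 ▸ v.toValuationSubring.zero_mem)
  have hz0 : y ^ 2 / t ^ 3 ≠ 0 := div_ne_zero (pow_ne_zero 2 hy0) (pow_ne_zero 3 ht0)
  -- `y² / t³` and its inverse lie in the valuation ring
  have h1 : v.toValuationSubring.valuation (y ^ 2 / t ^ 3) = 1 := by
    rw [map_div₀, map_pow, map_pow, h]
    exact div_self (pow_ne_zero 3 ((Valuation.ne_zero_iff _).mpr ht0))
  have hmem : y ^ 2 / t ^ 3 ∈ v.toValuationSubring :=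
    (v.toValuationSubring.valuation_le_one_iff _).mp h1.le
  have hmem' : (y ^ 2 / t ^ 3)⁻¹ ∈ v.toValuationSubring := by
    apply (v.toValuationSubring.valuation_le_one_iff _).mp
    rw [map_inv₀, h1, inv_one]
  have h2 := (PlaceB.ord_nonneg_iff v hz0).mpr hmem
  have h3 := (PlaceB.ord_nonneg_iff v (inv_ne_zero hz0)).mpr hmem'
  rw [Place.ord_inv] at h3
  have h4 : v.ord (y ^ 2 / t ^ 3) = 0 := by omega
  rw [div_eq_mul_inv, v.ord_mul (pow_ne_zero 2 hy0) (inv_ne_zero (pow_ne_zero 3 ht0)),
    Place.ord_inv, ord_pow', ord_pow'] at h4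
  push_cast at h4
  omega

/-- `y` is integral over `K[t]`: it is regular wherever `t` is. -/
theorem y_mem_of_t_mem (v : Place K F) (ht : t ∈ v.toValuationSubring) :
    y ∈ v.toValuationSubring := by
  set A := v.toValuationSubring with hA
  have hk : ∀ a : K, algebraMap K F a ∈ A := v.algebraMap_mem'
  by_contra hy
  have hyinv : y⁻¹ ∈ A := (A.mem_or_inv_mem y).resolve_left hy
  have hy0 : y ≠ 0 := fun h0 => hy (h0 ▸ A.zero_mem)
  rw [Affine.equation_iff] at hE
  simp only [baseChange_a₁, baseChange_a₂, baseChange_a₃, baseChange_a₄, baseChange_a₆] at hE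
  -- `y + (a₁ t + a₃) = y⁻¹ (t³ + …) ∈ A`
  have hlin : algebraMap K F W.a₁ * t + algebraMap K F W.a₃ ∈ A :=
    A.add_mem _ _ (A.mul_mem _ _ (hk _) ht) (hk _)
  have hcub : t ^ 3 + algebraMap K F W.a₂ * t ^ 2 + algebraMap K F W.a₄ * t +
      algebraMap K F W.a₆ ∈ A :=
    A.add_mem _ _ (A.add_mem _ _ (A.add_mem _ _ (A.pow_mem ht 3)
      (A.mul_mem _ _ (hk _) (A.pow_mem ht 2))) (A.mul_mem _ _ (hk _) ht)) (hk _)
  have h1 : y + (algebraMap K F W.a₁ * t + algebraMap K F W.a₃) =
      y⁻¹ * (t ^ 3 + algebraMap K F W.a₂ * t ^ 2 + algebraMap K F W.a₄ * t +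
        algebraMap K F W.a₆) := by
    rw [← hE]; field_simp; ring
  have h2 : y + (algebraMap K F W.a₁ * t + algebraMap K F W.a₃) ∈ A := by
    rw [h1]; exact A.mul_mem _ _ hyinv hcub
  have h3 : y = y + (algebraMap K F W.a₁ * t + algebraMap K F W.a₃) -
      (algebraMap K F W.a₁ * t + algebraMap K F W.a₃) := by ring
  rw [h3] at hy
  exact hy (sub_mem h2 hlin)

/-- **the Weierstrass frame exists** on `F = K(t, y)`, `[F : K(t)] = 2`. -/
theorem exists_wFrame [FiniteResidues K F] [HasPrincipalDivisors K F] [IsGen K t]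
    (hfin : Module.finrank K⟮t⟯ F = 2) : ∃ P : Place K F, WFrame W t y P := by
  have ht : Transcendental K t := IsGen.transcendental
  have ht0 : t ≠ 0 := fun h0 => ht (h0 ▸ isAlgebraic_zero)
  obtain ⟨A, hkA, htA⟩ := exists_place_infty (k := K) t ht
  have hAtop : A ≠ ⊤ := fun h => htA (h ▸ ValuationSubring.mem_top t)
  set P : Place K F := Fermat.Agent.GJ.FF.placeOf t A hkA hAtop with hP
  haveI : Nonempty (Place K F) := ⟨P⟩
  have htP : t ∉ P.toValuationSubring := htA
  -- the pole divisor of `t`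
  have H := hyp_of_isGen (K := K) t
  set D : Divisor K F := poleDivisor H t with hD
  have hdegD : Divisor.degree D = 2 := by
    rw [hD, degree_poleDivisor_eq_finrank H t ht, hfin]; rfl
  have hDv : ∀ v : Place K F, D v = max (-(v.ord t)) 0 := fun v => poleDivisor_apply H t v
  -- the order of `t` at `P` is negative and even
  have hordP : P.ord t < 0 := by
    by_contra h
    rw [not_lt] at h
    exact htP ((PlaceB.ord_nonneg_iff P ht0).mp h)
  have h23 := two_mul_ord_y W hE P htP
  -- split off the term at `P`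
  set D₂ : Divisor K F := D - Finsupp.single P (D P) with hD₂
  have hD₂nn : 0 ≤ D₂ := by
    rw [Finsupp.le_def]
    intro v
    by_cases hv : v = P
    · subst hv; simp [hD₂]
    · simp only [hD₂, Finsupp.coe_zero, Pi.zero_apply, Finsupp.coe_sub, Pi.sub_apply]
      rw [Finsupp.single_eq_of_ne hv, sub_zero, hDv]
      exact le_max_right _ _
  have hdeg₂ : 0 ≤ Divisor.degree D₂ := degree_nonneg_of_nonneg hD₂nn
  have hsplit : Divisor.degree D = D P * P.deg + Divisor.degree D₂ := by
    rw [hD₂, map_sub, Divisor.degree_single]; ring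
  have hDP : D P = -(P.ord t) := by
    rw [hDv]; exact max_eq_left (by omega)
  have hdegpos : (1 : ℤ) ≤ P.deg := by exact_mod_cast deg_pos P
  -- arithmetic: `a * d + r = 2`, `a ≥ 2` even, `d ≥ 1`, `r ≥ 0`
  have ha2 : (2 : ℤ) ≤ -(P.ord t) := by omega
  have hmul : (2 : ℤ) ≤ -(P.ord t) * P.deg := by nlinarith
  rw [hdegD, hDP] at hsplit
  have hr0 : Divisor.degree D₂ = 0 := by omega
  have hprod : -(P.ord t) * (P.deg : ℤ) = 2 := by omega
  have hd1 : (P.deg : ℤ) = 1 := by nlinarith
  have hordt : P.ord t = -2 := by rw [hd1] at hprod; omega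
  have hD₂0 : D₂ = 0 := Fermat.Agent.GJ27.RRCons.eq_zero_of_nonneg_of_degree_eq_zero hD₂nn hr0
  have hreg_t : ∀ v : Place K F, v ≠ P → 0 ≤ v.ord t := by
    intro v hv
    have h1 : D₂ v = 0 := by rw [hD₂0]; rfl
    simp only [hD₂, Finsupp.coe_sub, Pi.sub_apply] at h1
    rw [Finsupp.single_eq_of_ne hv, sub_zero, hDv] at h1
    have := le_max_left (-(v.ord t)) 0
    omega
  refine ⟨P, ?_⟩
  refine WFrame.of_equation W hE (by exact_mod_cast hd1) hordt (by omega) hreg_t ?_
  intro v hv
  rcases eq_or_ne y 0 with hy0 | hy0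
  · rw [hy0, Place.ord_zero]
  · exact (PlaceB.ord_nonneg_iff v hy0).mpr
      (y_mem_of_t_mem W hE v ((PlaceB.ord_nonneg_iff v ht0).mp (hreg_t v hv)))

end Abstract

/-! ### Mathlib's function field of a Weierstrass curve -/

section FunctionField

open Fermat.Agent.GF.EFrame

variable (E : WeierstrassCurve.Affine K)

/-- the Weierstrass frame on Mathlib's `E.FunctionField` (any characteristic, any `Δ`). -/
theorem exists_wFrame_functionField :
    ∃ P : Place K E.FunctionField, WFrame E (genX E) (genY E) P := by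
  have := Fermat.Agent.GJ.FF.finiteResidues (K := K) (genX E)
  have := hasPrincipalDivisors_gen (K := K) (genX E)
  exact exists_wFrame E (equation_gen E) (finrank_genX E)

variable [IsAlgClosed K]

/-- **the genus of an elliptic function field is one** (`K` algebraically closed, `2 ≠ 0`). -/
theorem genusFF_functionField (h2 : (2 : K) ≠ 0) (hΔ : E.Δ ≠ 0) :
    genusFF K E.FunctionField = 1 := by
  have := Fermat.Agent.GJ.FF.finiteResidues (K := K) (genX E)
  have := hasPrincipalDivisors_gen (K := K) (genX E)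
  obtain ⟨P, H⟩ := exists_wFrame_functionField E
  exact H.genusFF_eq_one h2 hΔ

/-- **Riemann–Roch on an elliptic function field**: `ℓ(D) = deg D` for `deg D ≥ 1`
(the binders `hrrF`, `hrrFt` of `GF/EFrame/LSH.lSpaceHypE`). -/
theorem finrank_eq_degree_functionField (h2 : (2 : K) ≠ 0) (hΔ : E.Δ ≠ 0)
    (D : Divisor K E.FunctionField) (hD : 1 ≤ Divisor.degree D) :
    (Module.finrank K (riemannRochSpace D) : ℤ) = Divisor.degree D := by
  have := Fermat.Agent.GJ.FF.finiteResidues (K := K) (genX E)
  have := hasPrincipalDivisors_gen (K := K) (genX E)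
  obtain ⟨P, H⟩ := exists_wFrame_functionField E
  exact H.finrank_eq_degree h2 hΔ hD

end FunctionField

end Fermat.Agent.GF.EGenus
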